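import Mathlib
import Fermat.Agent.Lib.Cheb.Spec
import Fermat.Agent.Lib.Cheb.H643.FrobAt

/-!
# CHEB piece F6: the bridge `FrobFiniteStatement → FrobeniusDivisionStatement`

* `Fermat.Agent.Lib.Cheb.H643.bridgeDivision : Spec.BridgeDivisionStatement`
* `Fermat.Agent.Lib.Cheb.H643.bridge : Spec.BridgeStatement` (Tier 2, same proof)
-/

set_option autoImplicit false
set_option linter.unusedSectionVars false

namespace Fermat.Agent.Lib.Cheb.H643

open scoped Pointwise
open NumberField
open Fermat.Agent.S54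
open Fermat.Agent.Lib.Cheb.Spec

section ValSubring

variable (L : IntermediateField ℚ Qb) [NumberField L]

/-- The embedding of the ring of integers of `L ⊆ ℚ̄` into `ℚ̄`. -/
noncomputable def intEmb : 𝓞 L →+* Qb := (algebraMap L Qb).comp (algebraMap (𝓞 L) L)

theorem intEmb_apply (x : 𝓞 L) : intEmb L x = ((x : L) : Qb) := rfl

theorem intEmb_injective : Function.Injective (intEmb L) :=
  (algebraMap L Qb).injective.comp (RingOfIntegers.coe_injective)

theorem intEmb_isIntegral (x : 𝓞 L) : IsIntegral ℤ (intEmb L x) :=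
  (RingOfIntegers.isIntegral x).map (IsScalarTower.toAlgHom ℤ (𝓞 L) Qb)

theorem intEmb_mem (A : ValuationSubring Qb) (x : 𝓞 L) : intEmb L x ∈ A :=
  isIntegral_mem_valuationSubring A (intEmb_isIntegral L x)

/-- Above every maximal ideal `P` of `𝓞 L` there is a valuation subring of `ℚ̄`. -/
theorem exists_valuationSubring_over (P : Ideal (𝓞 L)) (hP : P.IsMaximal) :
    ∃ A : ValuationSubring Qb, ∀ x : 𝓞 L, intEmb L x ∈ A.nonunits ↔ x ∈ P := by
  let f : 𝓞 L →+* (intEmb L).range := (intEmb L).rangeRestrict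
  have hf : Function.Bijective f :=
    ⟨fun a b h => intEmb_injective L
        (congrArg (fun t : (intEmb L).range => (t : Qb)) h),
      (intEmb L).rangeRestrict_surjective⟩
  have hI : Ideal.map f P ≠ ⊤ := by
    intro h
    have h1 := Ideal.comap_map_of_bijective f hf (I := P)
    rw [h, Ideal.comap_top] at h1
    exact hP.ne_top h1.symm
  obtain ⟨A, -, hA⟩ := Ideal.image_subset_nonunits_valuationSubring _ hI
  refine ⟨A, fun x => ⟨fun hx => ?_, fun hx => ?_⟩⟩
  · by_contra hxP
    obtain ⟨y, z, hz, hyz⟩ := hP.exists_inv hxP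
    have hz' : intEmb L z ∈ A.nonunits :=
      hA ⟨f z, Ideal.mem_map_of_mem f hz, rfl⟩
    have hyx : intEmb L (y * x) ∈ A.nonunits := by
      rw [map_mul]
      obtain ⟨hx1, hx2⟩ := ValuationSubring.mem_nonunits_iff_exists_mem_maximalIdeal.mp hx
      have := Ideal.mul_mem_left _ (⟨intEmb L y, intEmb_mem L A y⟩ : A) hx2
      exact ValuationSubring.mem_nonunits_iff_exists_mem_maximalIdeal.mpr ⟨_, this⟩
    have h1 : (1 : Qb) ∈ A.nonunits := by
      have := A.nonunits.add_mem hyx hz'
      rwa [← map_add, hyz, map_one] at this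
    rw [ValuationSubring.mem_nonunits_iff, map_one] at h1
    exact lt_irrefl _ h1
  · exact hA ⟨f x, Ideal.mem_map_of_mem f hx, rfl⟩

end ValSubring

section Main

/-- A finite-dimensional intermediate field of `ℚ̄/ℚ` is a number field. -/
theorem numberField_of_finiteDimensional (L : IntermediateField ℚ Qb) [FiniteDimensional ℚ L] :
    NumberField L :=
  { to_charZero := inferInstance, to_finiteDimensional := inferInstance }

/-- The cardinality of `ℤ ⧸ (P ∩ ℤ)` for a prime `P` containing the prime number `p`. -/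
theorem card_quot_under_eq {R : Type*} [CommRing R] (P : Ideal R) (hP : P.IsPrime) {p : ℕ}
    (hp : p.Prime) (hpP : (p : R) ∈ P) : Nat.card (ℤ ⧸ P.under ℤ) = p := by
  have hmax : (Ideal.span {(p : ℤ)}).IsMaximal :=
    PrincipalIdealRing.isMaximal_of_irreducible (Nat.prime_iff_prime_int.mp hp).irreducible
  have hle : Ideal.span {(p : ℤ)} ≤ P.under ℤ := by
    rw [Ideal.span_le, Set.singleton_subset_iff]
    show algebraMap ℤ R (p : ℤ) ∈ P
    simpa using hpP
  have hne : P.under ℤ ≠ ⊤ := (Ideal.IsPrime.under ℤ P).ne_top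
  rw [← hmax.eq_of_le hne hle, Nat.card_congr (Int.quotientSpanNatEquivZMod p).toEquiv,
    Nat.card_zmod]

variable (L : IntermediateField ℚ Qb) [NumberField L] [Normal ℚ L]

theorem intEmb_restrict_smul (g : GQ) (x : 𝓞 L) :
    intEmb L (AlgEquiv.restrictNormalHom L g • x) = g (intEmb L x) :=
  AlgEquiv.restrictNormal_commutes g L (x : L)

theorem restrict_apply_coe (g : GQ) (y : L) :
    ((AlgEquiv.restrictNormalHom L g y : L) : Qb) = g (y : Qb) :=
  AlgEquiv.restrictNormal_commutes g L y

/-- The restriction to `L` of a Frobenius element at `A` is an arithmetic Frobenius at the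
prime of `𝓞 L` below `A`. -/
theorem isArithFrobAt_restrict {A : ValuationSubring Qb} {P : Ideal (𝓞 L)} (hP : P.IsPrime)
    (hA : ∀ x : 𝓞 L, intEmb L x ∈ A.nonunits ↔ x ∈ P) {p : ℕ} (hp : p.Prime)
    (hpP : (p : 𝓞 L) ∈ P) {τ : GQ} (hτ : A.IsFrobeniusAt τ p) :
    IsArithFrobAt ℤ (AlgEquiv.restrictNormalHom L τ) P := by
  intro x
  rw [card_quot_under_eq P hP hp hpP, ← hA, map_sub, map_pow]
  show intEmb L (AlgEquiv.restrictNormalHom L τ • x) - _ ∈ _
  rw [intEmb_restrict_smul]
  exact IsFrobeniusAt_sub_pow_mem hτ (intEmb_mem L A x)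

/-- The restriction to `L` of an element of the inertia group at `A` lies in the inertia group
of the prime of `𝓞 L` below `A`. -/
theorem restrict_inertia_sub_mem {A : ValuationSubring Qb} {P : Ideal (𝓞 L)}
    (hA : ∀ x : 𝓞 L, intEmb L x ∈ A.nonunits ↔ x ∈ P) {ι : GQ}
    (hι : ι ∈ A.inertiaSubgroupIn ℚ) (x : 𝓞 L) :
    AlgEquiv.restrictNormalHom L ι • x - x ∈ P := by
  rw [← hA, map_sub, intEmb_restrict_smul]
  exact inertia_sub_mem hι (intEmb_mem L A x)

end Main

/-- **F6** (= W5): the bridge from the finite-level Frobenius density statement to the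
Prelude-level statement. -/
theorem bridgeDivision : BridgeDivisionStatement := by
  intro hFF E hE σ S
  have : Algebra.IsAlgebraic ℚ Qb := AlgebraicClosure.isAlgebraic ℚ
  have hnQ : Normal ℚ Qb := (isGalois_algebraicClosure_rat).to_normal
  let L : IntermediateField ℚ Qb := IntermediateField.normalClosure ℚ E Qb
  have hfd : FiniteDimensional ℚ L := normalClosure.is_finiteDimensional ℚ E Qb
  have hnL : Normal ℚ L := normalClosure.normal ℚ E Qb
  have hnf : NumberField L := numberField_of_finiteDimensional L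
  have hgal : IsGalois ℚ L := isGalois_iff.mpr ⟨inferInstance, hnL⟩
  have hEL : E ≤ L := IntermediateField.le_normalClosure E
  obtain ⟨p, P, τL, hp, hpS, hPprime, hpP, hinert, hfrob, hzp⟩ :=
    hFF L (AlgEquiv.restrictNormalHom L σ) S
  have hPne : P ≠ ⊥ := by
    rintro rfl
    have h0 : (p : 𝓞 L) = 0 := hpP
    exact hp.ne_zero (by exact_mod_cast h0)
  have hPmax : P.IsMaximal := hPprime.isMaximal hPne
  obtain ⟨A, hA⟩ := exists_valuationSubring_over L P hPmax
  have hAp : A.LiesOverPrime p := by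
    have h1 := (hA (p : 𝓞 L)).mpr hpP
    rwa [map_natCast] at h1
  obtain ⟨τ, hτ⟩ := exists_isFrobeniusAt p hp A hAp
  have hτL : AlgEquiv.restrictNormalHom L τ = τL := by
    have h1 := isArithFrobAt_restrict L hPprime hA hp hpP hτ
    have h2 := h1.mul_inv_mem_inertia hfrob
    exact mul_inv_eq_one.mp (hinert _ h2)
  obtain ⟨k, hk⟩ : ∃ k : ℕ, (AlgEquiv.restrictNormalHom L σ) ^ k = τL := by
    have h1 : τL ∈ Subgroup.zpowers (AlgEquiv.restrictNormalHom L σ) := by
      rw [← hzp]
      exact Subgroup.mem_zpowers _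
    exact (Submonoid.mem_powers_iff _ _).mp
      (mem_powers_iff_mem_zpowers.mpr h1)
  obtain ⟨j, hj⟩ : ∃ j : ℕ, τL ^ j = AlgEquiv.restrictNormalHom L σ := by
    have h1 : AlgEquiv.restrictNormalHom L σ ∈ Subgroup.zpowers τL := by
      rw [hzp]
      exact Subgroup.mem_zpowers _
    exact (Submonoid.mem_powers_iff _ _).mp
      (mem_powers_iff_mem_zpowers.mpr h1)
  refine ⟨p, A, τ, k, j, hp, hpS, hAp, hτ, ?_, ?_, ?_⟩
  · intro ι hι x hx
    have h1 : AlgEquiv.restrictNormalHom L ι = 1 :=
      hinert _ (restrict_inertia_sub_mem L hA hι)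
    have h2 := restrict_apply_coe L ι ⟨x, hEL hx⟩
    rw [h1] at h2
    exact h2.symm
  · intro x hx
    have h1 := restrict_apply_coe L τ ⟨x, hEL hx⟩
    have h2 := restrict_apply_coe L (σ ^ k) ⟨x, hEL hx⟩
    rw [hτL, ← hk, ← map_pow] at h1
    exact h1.symm.trans h2
  · intro x hx
    have h1 := restrict_apply_coe L (τ ^ j) ⟨x, hEL hx⟩
    have h2 := restrict_apply_coe L σ ⟨x, hEL hx⟩
    rw [map_pow, hτL, hj] at h1
    exact h1.symm.trans h2

/-- **BR2**: the bridge from finite-level qualitative Chebotarev to the Prelude-level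
statement. -/
theorem bridge : BridgeStatement := by
  intro hCF E hE σ S
  have : Algebra.IsAlgebraic ℚ Qb := AlgebraicClosure.isAlgebraic ℚ
  have hnQ : Normal ℚ Qb := (isGalois_algebraicClosure_rat).to_normal
  let L : IntermediateField ℚ Qb := IntermediateField.normalClosure ℚ E Qb
  have hfd : FiniteDimensional ℚ L := normalClosure.is_finiteDimensional ℚ E Qb
  have hnL : Normal ℚ L := normalClosure.normal ℚ E Qb
  have hnf : NumberField L := numberField_of_finiteDimensional L
  have hgal : IsGalois ℚ L := isGalois_iff.mpr ⟨inferInstance, hnL⟩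
  have hEL : E ≤ L := IntermediateField.le_normalClosure E
  obtain ⟨p, P, hp, hpS, hPprime, hpP, hinert, hfrob⟩ :=
    hCF L (AlgEquiv.restrictNormalHom L σ) S
  have hPne : P ≠ ⊥ := by
    rintro rfl
    have h0 : (p : 𝓞 L) = 0 := hpP
    exact hp.ne_zero (by exact_mod_cast h0)
  have hPmax : P.IsMaximal := hPprime.isMaximal hPne
  obtain ⟨A, hA⟩ := exists_valuationSubring_over L P hPmax
  have hAp : A.LiesOverPrime p := by
    have h1 := (hA (p : 𝓞 L)).mpr hpP
    rwa [map_natCast] at h1
  obtain ⟨τ, hτ⟩ := exists_isFrobeniusAt p hp A hAp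
  have hτL : AlgEquiv.restrictNormalHom L τ = AlgEquiv.restrictNormalHom L σ := by
    have h1 := isArithFrobAt_restrict L hPprime hA hp hpP hτ
    have h2 := h1.mul_inv_mem_inertia hfrob
    exact mul_inv_eq_one.mp (hinert _ h2)
  refine ⟨p, A, τ, hp, hpS, hAp, hτ, ?_, ?_⟩
  · intro ι hι x hx
    have h1 : AlgEquiv.restrictNormalHom L ι = 1 :=
      hinert _ (restrict_inertia_sub_mem L hA hι)
    have h2 := restrict_apply_coe L ι ⟨x, hEL hx⟩
    rw [h1] at h2
    exact h2.symm
  · intro x hx
    have h1 := restrict_apply_coe L τ ⟨x, hEL hx⟩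
    have h2 := restrict_apply_coe L σ ⟨x, hEL hx⟩
    rw [hτL] at h1
    exact h1.symm.trans h2

end Fermat.Agent.Lib.Cheb.H643
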